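import Mathlib
import Fermat.Agent.MUL.Lib.Deuring.Setup
import Fermat.Agent.MUL.Orig.S20.Basics

section MergeWrap_Lib_Deuring_Basic -- from Lib/Deuring/Basic.lean

set_option autoImplicit false

/-!
# Deuring library: basic API of the total reduction map `red`
-/

noncomputable section

open AlgebraicCurve Fermat.Agent.RR

namespace Fermat.Agent.Deuring

variable {K F k Fk : Type*} [Field K] [Field F] [Algebra K F]
  [Field k] [Field Fk] [Algebra k Fk]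

namespace ValSetup

variable (S : ValSetup K F k Fk)

theorem red_of_mem {f : F} (hf : f ∈ S.Ov) : S.red f = S.ρ ⟨f, hf⟩ := by
  unfold ValSetup.red
  rw [dif_pos hf]

theorem red_of_not_mem {f : F} (hf : f ∉ S.Ov) : S.red f = 0 := by
  unfold ValSetup.red
  rw [dif_neg hf]

@[simp]
theorem red_zero : S.red 0 = 0 := by
  rw [S.red_of_mem (zero_mem _)]
  exact map_zero S.ρ

@[simp]
theorem red_one : S.red 1 = 1 := by
  rw [S.red_of_mem (one_mem _)]
  exact map_one S.ρ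

theorem red_mul {f g : F} (hf : f ∈ S.Ov) (hg : g ∈ S.Ov) :
    S.red (f * g) = S.red f * S.red g := by
  rw [S.red_of_mem hf, S.red_of_mem hg, S.red_of_mem (mul_mem hf hg), ← map_mul]
  rfl

theorem red_add {f g : F} (hf : f ∈ S.Ov) (hg : g ∈ S.Ov) :
    S.red (f + g) = S.red f + S.red g := by
  rw [S.red_of_mem hf, S.red_of_mem hg, S.red_of_mem (add_mem hf hg), ← map_add]
  rfl

theorem red_neg {f : F} (hf : f ∈ S.Ov) : S.red (-f) = -S.red f := by
  rw [S.red_of_mem hf, S.red_of_mem (neg_mem hf), ← map_neg]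
  rfl

theorem red_sub {f g : F} (hf : f ∈ S.Ov) (hg : g ∈ S.Ov) :
    S.red (f - g) = S.red f - S.red g := by
  rw [S.red_of_mem hf, S.red_of_mem hg, S.red_of_mem (sub_mem hf hg), ← map_sub]
  rfl

theorem red_pow {f : F} (hf : f ∈ S.Ov) (n : ℕ) : S.red (f ^ n) = S.red f ^ n := by
  rw [S.red_of_mem hf, S.red_of_mem (pow_mem hf n), ← map_pow]
  rfl

theorem algebraMap_mem {c : K} (hc : c ∈ S.A) : algebraMap K F c ∈ S.Ov :=
  (S.mem_Ov_iff c).mpr hc

theorem red_algebraMap {c : K} (hc : c ∈ S.A) :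
    S.red (algebraMap K F c) = algebraMap k Fk (S.res ⟨c, hc⟩) := by
  rw [S.red_of_mem (S.algebraMap_mem hc)]
  exact S.ρ_algebraMap c hc _

theorem red_smul {c : K} (hc : c ∈ S.A) {f : F} (hf : f ∈ S.Ov) :
    S.red (c • f) = S.res ⟨c, hc⟩ • S.red f := by
  rw [Algebra.smul_def, S.red_mul (S.algebraMap_mem hc) hf, S.red_algebraMap hc, Algebra.smul_def]

theorem smul_mem {c : K} (hc : c ∈ S.A) {f : F} (hf : f ∈ S.Ov) : c • f ∈ S.Ov := by
  rw [Algebra.smul_def]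
  exact mul_mem (S.algebraMap_mem hc) hf

/-- the reduction of `f ∈ Ov`, `f ≠ 0`, vanishes iff `f` is not a unit of `Ov`. -/
theorem red_eq_zero_iff {f : F} (hf : f ∈ S.Ov) (hf0 : f ≠ 0) : S.red f = 0 ↔ f⁻¹ ∉ S.Ov := by
  rw [S.red_of_mem hf, S.ρ_eq_zero_iff]
  constructor
  · intro hnu hinv
    apply hnu
    exact ⟨⟨⟨f, hf⟩, ⟨f⁻¹, hinv⟩, Subtype.ext (mul_inv_cancel₀ hf0),
      Subtype.ext (inv_mul_cancel₀ hf0)⟩, rfl⟩
  · intro hinv hu
    apply hinv
    obtain ⟨u, hu⟩ := hu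
    have h1 : ((u⁻¹ : S.Ovˣ) : S.Ov) * (⟨f, hf⟩ : S.Ov) = 1 := by
      rw [← hu]
      exact u.inv_mul
    have h2 : (((u⁻¹ : S.Ovˣ) : S.Ov) : F) * f = 1 := by
      have := congrArg (Subtype.val) h1
      simpa using this
    have h3 : f⁻¹ = (((u⁻¹ : S.Ovˣ) : S.Ov) : F) := by
      rw [eq_comm, ← mul_eq_one_iff_eq_inv₀ hf0]
      exact h2
    rw [h3]
    exact Subtype.mem _

theorem red_ne_zero {f : F} (hf : f ∈ S.Ov) (hinv : f⁻¹ ∈ S.Ov) (hf0 : f ≠ 0) : S.red f ≠ 0 := by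
  intro h
  exact ((S.red_eq_zero_iff hf hf0).mp h) hinv

theorem mem_of_red_ne_zero {f : F} (h : S.red f ≠ 0) : f ∈ S.Ov := by
  by_contra hf
  exact h (S.red_of_not_mem hf)

theorem inv_mem_of_red_ne_zero {f : F} (h : S.red f ≠ 0) : f⁻¹ ∈ S.Ov := by
  have hf := S.mem_of_red_ne_zero h
  have hf0 : f ≠ 0 := by
    rintro rfl
    exact h S.red_zero
  by_contra hinv
  exact h ((S.red_eq_zero_iff hf hf0).mpr hinv)

theorem ne_zero_of_red_ne_zero {f : F} (h : S.red f ≠ 0) : f ≠ 0 := by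
  rintro rfl
  exact h S.red_zero

theorem red_inv {f : F} (hf : f ∈ S.Ov) (hinv : f⁻¹ ∈ S.Ov) (hf0 : f ≠ 0) :
    S.red f⁻¹ = (S.red f)⁻¹ := by
  have h1 : S.red f * S.red f⁻¹ = 1 := by
    rw [← S.red_mul hf hinv, mul_inv_cancel₀ hf0, S.red_one]
  exact eq_inv_of_mul_eq_one_right h1

/-- normal form: every `f ≠ 0` is `c • u` with `c ∈ Kˣ` and `red u ≠ 0`. -/
theorem exists_scale {f : F} (hf : f ≠ 0) :
    ∃ c : K, c ≠ 0 ∧ S.red (c⁻¹ • f) ≠ 0 := by
  obtain ⟨c, hc, h1, h2⟩ := S.scale f hf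
  refine ⟨c, hc, ?_⟩
  have e : c⁻¹ • f = f * (algebraMap K F c)⁻¹ := by
    rw [Algebra.smul_def, map_inv₀, mul_comm]
  rw [e]
  have hc' : algebraMap K F c ≠ 0 := by
    rw [Ne, map_eq_zero_iff _ (algebraMap K F).injective]
    exact hc
  exact S.red_ne_zero h1 h2 (mul_ne_zero hf (inv_ne_zero hc'))

/-- `A` is the preimage of `Ov`: for a constant `c ∉ A` we have `c⁻¹ ∈ A` and `res c⁻¹ = 0`. -/
theorem res_inv_eq_zero {c : K} (hc : c ∉ S.A) :
    ∃ h : c⁻¹ ∈ S.A, S.res ⟨c⁻¹, h⟩ = 0 := by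
  have hc0 : c ≠ 0 := by
    rintro rfl
    exact hc (zero_mem _)
  have hinv : c⁻¹ ∈ S.A := (S.A.mem_or_inv_mem c).resolve_left hc
  refine ⟨hinv, ?_⟩
  have h1 : S.red (algebraMap K F c⁻¹) = 0 := by
    have hne : algebraMap K F c⁻¹ ≠ 0 := by
      rw [Ne, map_eq_zero_iff _ (algebraMap K F).injective]
      exact inv_ne_zero hc0
    rw [S.red_eq_zero_iff (S.algebraMap_mem hinv) hne, ← map_inv₀, inv_inv, S.mem_Ov_iff]
    exact hc
  rw [S.red_algebraMap hinv] at h1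
  exact (map_eq_zero_iff _ (algebraMap k Fk).injective).mp h1

end ValSetup

end Fermat.Agent.Deuring
end
end MergeWrap_Lib_Deuring_Basic
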