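import Mathlib
import Fermat.Agent.MUL.Lib.RR.Weil
import Fermat.Agent.MUL.Lib.Deuring.Basic

section MergeWrap_Lib_Deuring_Generic -- from Lib/Deuring/Generic.lean

set_option autoImplicit false

/-!
# Deuring library, piece (P5): dominant elements, divisors of large degree

Pure Riemann-Roch-library statements about ONE function field.

Maths.
* `exists_dominant`: `V` finite-dimensional, `1 ∈ V`, `k` infinite.  Let `b_1..b_n` span `V`,
  `T` = the (finite) set of poles of the `b_i`.  For `Q ∈ T` put `m_Q = max_i (-ord_Q b_i) ≥ 0`;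
  `V_Q = {u ∈ V | -ord_Q u < m_Q} ∪ {0}` is a proper subspace.  A vector space over an infinite field
  is not a finite union of proper subspaces, so there is `v ∈ V` outside all `V_Q`, and
  `(v)_∞ = ∑_Q m_Q Q` dominates every element of `V`.
* `exists_ord_eq`: base point freeness in degree `≥ 2g`: `ℓ(E - Q) = ℓ(E) - 1`.
* `eq_of_riemannRochSpace_eq`: consequence.
* `ell_le_genus`: `ℓ(E) ≤ ℓ(E') = g` for `E ≤ E'`, `deg E' = 2g - 1`.
-/

noncomputable section

open AlgebraicCurve Fermat.Agent.RR

namespace Fermat.Agent.Deuring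

variable {k Fk : Type*} [Field k] [Field Fk] [Algebra k Fk]

/-- (P5b) base point freeness: if `deg E ≥ 2g` then for every place `Q` some `f ∈ L(E)` has
`ord_Q f = - E Q` exactly. -/
theorem exists_ord_eq (h : IsRRField k Fk) {E : Divisor k Fk}
    (hE : 2 * (genusFF k Fk : ℤ) ≤ Divisor.degree E) (Q : Place k Fk) :
    ∃ f ∈ riemannRochSpace E, f ≠ 0 ∧ Q.ord f = - E Q := by
  set E₀ : Divisor k Fk := E - Finsupp.single Q 1 with hE₀
  have hEE : E₀ + Finsupp.single Q 1 = E := by rw [hE₀]; abel
  have hdeg : Divisor.degree E = Divisor.degree E₀ + 1 := by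
    rw [← hEE, degree_add_single h]
  have h1 := ell_of_degree_gt h (D := E) (by linarith)
  have h0 := ell_of_degree_gt h (D := E₀) (by linarith)
  have hell : ell (E₀ + Finsupp.single Q 1) = ell E₀ + 1 := by
    rw [hEE]
    have : (ell E : ℤ) = (ell E₀ : ℤ) + 1 := by linarith
    exact_mod_cast this
  obtain ⟨f, hf, hfn⟩ := (ell_add_single_eq_iff h E₀ Q).mp hell
  obtain ⟨hf0, hord⟩ := ord_eq_of_mem_add_single_of_not_mem hf hfn
  refine ⟨f, hEE ▸ hf, hf0, ?_⟩
  rw [hord, hE₀, Finsupp.sub_apply, Finsupp.single_eq_same]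
  ring

/-- (P5c) a divisor of degree `≥ 2g` is determined by its Riemann-Roch space. -/
theorem eq_of_riemannRochSpace_eq (h : IsRRField k Fk) {E E' : Divisor k Fk}
    (hE : 2 * (genusFF k Fk : ℤ) ≤ Divisor.degree E)
    (hE' : 2 * (genusFF k Fk : ℤ) ≤ Divisor.degree E')
    (heq : riemannRochSpace E = riemannRochSpace E') : E = E' := by
  ext Q
  apply le_antisymm
  · obtain ⟨f, hf, hf0, hord⟩ := exists_ord_eq h hE Q
    rw [heq] at hf
    have := ((mem_riemannRochSpace_iff.mp hf) Q).resolve_left hf0
    omega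
  · obtain ⟨f, hf, hf0, hord⟩ := exists_ord_eq h hE' Q
    rw [← heq] at hf
    have := ((mem_riemannRochSpace_iff.mp hf) Q).resolve_left hf0
    omega

/-- (P5c') comparison of divisors of large degree through their Riemann-Roch spaces. -/
theorem le_of_riemannRochSpace_le (h : IsRRField k Fk) {E E' : Divisor k Fk}
    (hE : 2 * (genusFF k Fk : ℤ) ≤ Divisor.degree E)
    (hle : riemannRochSpace E ≤ riemannRochSpace E') : E ≤ E' := by
  rw [Finsupp.le_def]
  intro Q
  obtain ⟨f, hf, hf0, hord⟩ := exists_ord_eq h hE Q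
  have := ((mem_riemannRochSpace_iff.mp (hle hf)) Q).resolve_left hf0
  omega

/-- (P5d) `ℓ(E) ≤ g` if `deg E ≤ 2g - 1`. -/
theorem ell_le_of_degree_le (h : IsRRField k Fk) {E : Divisor k Fk}
    (hE : Divisor.degree E ≤ 2 * (genusFF k Fk : ℤ) - 1) :
    ell E ≤ genusFF k Fk := by
  obtain ⟨P⟩ := nonempty_place h
  set n : ℤ := 2 * (genusFF k Fk : ℤ) - 1 - Divisor.degree E with hn
  have hn0 : 0 ≤ n := by rw [hn]; linarith
  set E' : Divisor k Fk := E + Finsupp.single P n with hE'
  have hle : E ≤ E' := by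
    rw [hE', le_add_iff_nonneg_right]
    classical
    intro v
    rw [Finsupp.single_apply]
    split_ifs
    · exact hn0
    · exact le_rfl
  have hdeg : Divisor.degree E' = 2 * (genusFF k Fk : ℤ) - 1 := by
    rw [hE', map_add, degree_single_one h, hn]
    ring
  have h1 := ell_of_degree_gt h (D := E') (by rw [hdeg]; linarith)
  have h2 := ell_mono h hle
  have h3 : (ell E : ℤ) ≤ (ell E' : ℤ) := by exact_mod_cast h2
  have h4 : (ell E : ℤ) ≤ (genusFF k Fk : ℤ) := by rw [h1, hdeg] at h3; linarith
  exact_mod_cast h4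

/-- (P5e) an effective divisor of degree one is a place. -/
theorem exists_eq_single_of_degree_eq_one (h : IsRRField k Fk) {E : Divisor k Fk} (hE : 0 ≤ E)
    (hdeg : Divisor.degree E = 1) : ∃ Q : Place k Fk, E = Finsupp.single Q 1 := by
  classical
  have hne : E ≠ 0 := by
    rintro rfl
    rw [map_zero] at hdeg
    exact zero_ne_one hdeg
  obtain ⟨Q, hQ⟩ := Finsupp.support_nonempty_iff.mpr hne
  rw [Finsupp.mem_support_iff] at hQ
  have hQ1 : 1 ≤ E Q := by
    have := hE Q
    rw [Finsupp.zero_apply] at this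
    omega
  refine ⟨Q, ?_⟩
  have hE' : 0 ≤ E - Finsupp.single Q 1 := by
    rw [Finsupp.le_def]
    intro v
    rw [Finsupp.zero_apply, Finsupp.sub_apply, Finsupp.single_apply]
    split_ifs with hv
    · subst hv; omega
    · have := hE v
      rw [Finsupp.zero_apply] at this
      omega
  have hd : Divisor.degree (E - Finsupp.single Q 1) = 0 := by
    rw [map_sub, degree_single_one h, hdeg]
    ring
  have := eq_zero_of_nonneg_of_degree_eq_zero h hE' hd
  exact sub_eq_zero.mp this

/-- (P5f) an element which is algebraic over the constants has neither zeros nor poles. -/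
theorem ord_eq_zero_of_isAlgebraic (Q : Place k Fk) {f : Fk} (hf : f ≠ 0)
    (halg : IsAlgebraic k f) : Q.ord f = 0 := by
  have hk : ∀ r : k, algebraMap k Fk r ∈ Q.toValuationSubring := fun r =>
    Fermat.Agent.S24Res.mem_of_ord_nonneg Q (by rw [Fermat.Agent.S24Res.ord_algebraMap])
  have h1 : f ∈ Q.toValuationSubring :=
    Fermat.Agent.S24Res.mem_of_isIntegral_of_forall_mem Q hk halg.isIntegral
  have h2 : f⁻¹ ∈ Q.toValuationSubring :=
    Fermat.Agent.S24Res.mem_of_isIntegral_of_forall_mem Q hk halg.inv.isIntegral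
  have h3 := Fermat.Agent.S24Res.ord_nonneg_of_mem Q h1
  have h4 := Fermat.Agent.S24Res.ord_nonneg_of_mem Q h2
  rw [Q.ord_inv] at h4
  omega

/-- (P5g) multiplication by `f` : `L(E + div f) = f⁻¹ • L(E)`, as an equality of subspaces. -/
theorem mem_riemannRochSpace_add_divOf_iff (h : IsRRField k Fk) (E : Divisor k Fk) {f : Fk}
    (hf : f ≠ 0) (x : Fk) :
    x ∈ riemannRochSpace (E + divOf h f) ↔ x * f ∈ riemannRochSpace E := by
  rcases eq_or_ne x 0 with rfl | hx
  · simp
  rw [mem_riemannRochSpace_iff, mem_riemannRochSpace_iff]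
  refine forall_congr' fun v => ?_
  rw [Finsupp.add_apply, divOf_apply, v.ord_mul hx hf]
  simp only [hx, mul_eq_zero, hf, or_self, false_or]
  constructor <;> intro hh <;> omega

/-- (P5a) a finite-dimensional space of functions containing `1` has an element whose pole
divisor dominates the poles of all its elements. -/
theorem exists_dominant (h : IsRRField k Fk) [Infinite k] (V : Submodule k Fk)
    [FiniteDimensional k V] (h1 : (1 : Fk) ∈ V) :
    ∃ v ∈ V, v ≠ 0 ∧ V ≤ riemannRochSpace (poleDiv h v) := by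
  classical
  -- a common pole bound
  obtain ⟨s, hs⟩ : ∃ s : Finset Fk, Submodule.span k (s : Set Fk) = V := by
    have hfg : V.FG := (Submodule.fg_top V).mp (Module.Finite.fg_top)
    exact hfg
  obtain ⟨C, hC0, hC⟩ := exists_common_poleBound h s
  have hVC : V ≤ riemannRochSpace C := by
    rw [← hs, Submodule.span_le]
    exact fun f hf => hC f hf
  -- the maximal pole order at each place
  have hbdd : ∀ Q : Place k Fk, ∃ u ∈ V, u ≠ 0 ∧ ∀ w ∈ V, w ≠ 0 → Q.ord u ≤ Q.ord w := by
    intro Q
    -- minimise `ord_Q u + C Q ≥ 0`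
    have hex : ∃ n : ℕ, ∃ u ∈ V, u ≠ 0 ∧ Q.ord u + C Q = n := by
      refine ⟨(Q.ord (1 : Fk) + C Q).toNat, 1, h1, one_ne_zero, ?_⟩
      rw [Int.toNat_of_nonneg]
      have := ((mem_riemannRochSpace_iff.mp (hVC h1)) Q).resolve_left one_ne_zero
      omega
    obtain ⟨u, hu, hu0, hun⟩ := Nat.find_spec hex
    refine ⟨u, hu, hu0, fun w hw hw0 => ?_⟩
    have hwC := ((mem_riemannRochSpace_iff.mp (hVC hw)) Q).resolve_left hw0
    by_contra hlt
    push Not at hlt
    have hlt' : (Q.ord w + C Q).toNat < Nat.find hex := by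
      have : ((Q.ord w + C Q).toNat : ℤ) < (Nat.find hex : ℤ) := by
        rw [Int.toNat_of_nonneg (by omega), ← hun]
        omega
      exact_mod_cast this
    exact Nat.find_min hex hlt' ⟨w, hw, hw0, (Int.toNat_of_nonneg (by omega)).symm⟩
  choose u hu hu0 humin using hbdd
  -- proper subspaces
  let D : Place k Fk → Divisor k Fk := fun Q =>
    C - Finsupp.single Q (C Q + Q.ord (u Q) + 1)
  let p : Option C.support → Submodule k V := fun i =>
    match i with
    | none => ⊥
    | some Q => (riemannRochSpace (D Q.1)).comap V.subtype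
  have hp : ∀ i, p i ≠ ⊤ := by
    intro i
    match i with
    | none =>
      intro htop
      have : (⟨1, h1⟩ : V) ∈ (⊥ : Submodule k V) := by
        change (⟨1, h1⟩ : V) ∈ p none
        rw [htop]; trivial
      rw [Submodule.mem_bot] at this
      exact one_ne_zero (congrArg Subtype.val this)
    | some Q =>
      intro htop
      have : (⟨u Q.1, hu Q.1⟩ : V) ∈ (riemannRochSpace (D Q.1)).comap V.subtype := by
        change (⟨u Q.1, hu Q.1⟩ : V) ∈ p (some Q)
        rw [htop]; trivial
      rw [Submodule.mem_comap] at this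
      have hh := ((mem_riemannRochSpace_iff.mp this) Q.1).resolve_left (hu0 Q.1)
      simp only [D, Finsupp.sub_apply, Finsupp.single_eq_same, Submodule.subtype_apply] at hh
      omega
  obtain ⟨x, hx⟩ := Submodule.exists_forall_notMem_of_forall_ne_top p hp
  have hx0 : (x : Fk) ≠ 0 := by
    intro h0
    apply hx none
    change x ∈ (⊥ : Submodule k V)
    rw [Submodule.mem_bot]
    exact Subtype.ext h0
  refine ⟨x, x.2, hx0, fun w hw => ?_⟩
  rw [mem_riemannRochSpace_iff]
  intro Q
  rcases eq_or_ne w 0 with hw0 | hw0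
  · exact Or.inl hw0
  right
  rw [poleDiv_apply]
  have hwC := ((mem_riemannRochSpace_iff.mp (hVC hw)) Q).resolve_left hw0
  by_cases hQ : Q ∈ C.support
  · -- `x ∉ L(D Q)` forces `ord_Q x ≤ ord_Q (u Q)`
    have hxQ : Q.ord (x : Fk) ≤ Q.ord (u Q) := by
      by_contra hlt
      push Not at hlt
      apply hx (some ⟨Q, hQ⟩)
      change x ∈ (riemannRochSpace (D Q)).comap V.subtype
      rw [Submodule.mem_comap, mem_riemannRochSpace_iff]
      intro v
      right
      have hxC := ((mem_riemannRochSpace_iff.mp (hVC x.2)) v).resolve_left hx0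
      simp only [D, Finsupp.sub_apply, Finsupp.single_apply, Submodule.subtype_apply]
      split_ifs with hv
      · subst hv; omega
      · omega
    have := humin Q w hw hw0
    have := le_max_left (-(Q.ord (x : Fk))) 0
    omega
  · rw [Finsupp.notMem_support_iff] at hQ
    have := le_max_right (-(Q.ord (x : Fk))) 0
    omega

end Fermat.Agent.Deuring
end
end MergeWrap_Lib_Deuring_Generic
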