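import Mathlib
import Fermat.Agent.MUL.Lib.Deuring.RedSpace
import Fermat.Agent.MUL.Lib.Deuring.Generic
import Fermat.Agent.MUL.S24.ValInf

section MergeWrap_Lib_Deuring_Construct -- from Lib/Deuring/Construct.lean

set_option autoImplicit false

/-!
# Deuring's reduction of divisors (abstract): construction of the reduction map of places

Input: a constant reduction `S : ValSetup K F k Fk` with the lattice property, the fundamental
inequality `deg (red w)_∞ ≤ deg (w)_∞` (`FundIneqProp`, proved in `FundIneq.lean`) and GENUS EQUALITY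
`g(F) = g(Fk)`.

Output (`exists_reduction_of_fundIneq`): a map `r : Place K F → Place k Fk` such that
* (push) `r_* (div f) = div (red f)` for units `f` of `Ov`,
* (GR)   `red (L(B) ∩ Ov) = L_k(r_* B)` for every divisor `B` of degree `≥ 2g`.

Method (Deuring): for `deg D ≥ 2g` the space `V(D) = red (L(D) ∩ Ov)` has dimension
`ℓ(D) = deg D + 1 - g` (lattice), it is contained in `L_k(R)` for the pole divisor `R` of a
dominant element, `deg R ≤ deg D` (fundamental inequality), hence `ℓ_k(R) ≤ deg D + 1 - g` unless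
`deg R ≤ 2g - 1`, which is impossible.  So `V(D) = L_k(R)`, `deg R = deg D`, and `R =: R(D)` is
unique, monotone and additive in `D`.
-/

noncomputable section

open AlgebraicCurve Fermat.Agent.RR

namespace Fermat.Agent.Deuring

variable {K F k Fk : Type*} [Field K] [Field F] [Algebra K F]
  [Field k] [Field Fk] [Algebra k Fk]

/-- the fundamental inequality, as a property of a constant reduction. -/
def FundIneqProp (S : ValSetup K F k Fk) : Prop :=
  ∀ w : F, w ∈ S.Ov → Transcendental k (S.red w) →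
    Divisor.degree (poleDiv S.hFk (S.red w)) ≤ Divisor.degree (poleDiv S.hF w)

/-- `R` is the reduction of the divisor `D`: same degree, and `L_k(R)` is the reduction of
`L(D)`. -/
def IsRedDiv (S : ValSetup K F k Fk) (D : Divisor K F) (R : Divisor k Fk) : Prop :=
  Divisor.degree R = Divisor.degree D ∧ redSpace S (riemannRochSpace D) = riemannRochSpace R

variable (S : ValSetup K F k Fk)

/-! ### generalities -/

theorem one_mem_riemannRochSpace_of_nonneg {D : Divisor K F} (hD : 0 ≤ D) :
    (1 : F) ∈ riemannRochSpace D := by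
  rw [mem_riemannRochSpace_iff]
  intro v
  right
  have := Finsupp.le_def.mp hD v
  rw [Finsupp.zero_apply] at this
  rw [Place.ord_one]
  omega

theorem mul_mem_riemannRochSpace_add {D D' : Divisor K F} {x y : F}
    (hx : x ∈ riemannRochSpace D) (hy : y ∈ riemannRochSpace D') :
    x * y ∈ riemannRochSpace (D + D') := by
  rcases eq_or_ne x 0 with rfl | hx0
  · rw [zero_mul]; exact zero_mem _
  rcases eq_or_ne y 0 with rfl | hy0
  · rw [mul_zero]; exact zero_mem _
  rw [mem_riemannRochSpace_iff] at hx hy ⊢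
  intro v
  right
  have h1 := (hx v).resolve_left hx0
  have h2 := (hy v).resolve_left hy0
  rw [v.ord_mul hx0 hy0, Finsupp.add_apply]
  omega

theorem poleDiv_le_of_mem (h : IsRRField K F) {D : Divisor K F} (hD : 0 ≤ D) {v : F}
    (hv0 : v ≠ 0) (hv : v ∈ riemannRochSpace D) : poleDiv h v ≤ D := by
  rw [Finsupp.le_def]
  intro P
  rw [poleDiv_apply]
  have h1 := ((mem_riemannRochSpace_iff.mp hv) P).resolve_left hv0
  have h2 := Finsupp.le_def.mp hD P
  rw [Finsupp.zero_apply] at h2
  exact max_le (by omega) h2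

theorem poleDiv_eq_zero_of_isAlgebraic (h : IsRRField k Fk) {y : Fk} (hy : IsAlgebraic k y) :
    poleDiv h y = 0 := by
  ext Q
  rw [poleDiv_apply, Finsupp.zero_apply]
  rcases eq_or_ne y 0 with rfl | hy0
  · rw [Place.ord_zero]; simp
  · rw [ord_eq_zero_of_isAlgebraic Q hy0 hy]; simp

/-- the fundamental inequality for all elements. -/
theorem FundIneqProp.degree_le {S : ValSetup K F k Fk} (hFI : FundIneqProp S) (w : F) :
    Divisor.degree (poleDiv S.hFk (S.red w)) ≤ Divisor.degree (poleDiv S.hF w) := by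
  by_cases hw : w ∈ S.Ov
  · by_cases htr : Transcendental k (S.red w)
    · exact hFI w hw htr
    · have halg : IsAlgebraic k (S.red w) := by
        by_contra hna
        exact htr hna
      rw [poleDiv_eq_zero_of_isAlgebraic S.hFk halg, map_zero]
      exact degree_nonneg_of_nonneg S.hF (poleDiv_nonneg S.hF w)
  · rw [S.red_of_not_mem hw, poleDiv_eq_zero_of_isAlgebraic S.hFk (isAlgebraic_zero), map_zero]
    exact degree_nonneg_of_nonneg S.hF (poleDiv_nonneg S.hF w)

/-! ### existence of the reduction of a divisor of large degree -/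

/-- Claim 1, effective case. -/
theorem exists_isRedDiv_of_nonneg (hL : HasLattice S) [Infinite k] (hFI : FundIneqProp S)
    (hg : genusFF K F = genusFF k Fk) {D : Divisor K F} (hD : 0 ≤ D)
    (hdeg : 2 * (genusFF K F : ℤ) ≤ Divisor.degree D) :
    ∃ R : Divisor k Fk, IsRedDiv S D R := by
  have := finite_riemannRochSpace S.hF D
  have := finiteDimensional_redSpace S hL (riemannRochSpace D)
  have h1 : (1 : Fk) ∈ redSpace S (riemannRochSpace D) := by
    have := red_mem_redSpace S (riemannRochSpace D) (one_mem_riemannRochSpace_of_nonneg hD)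
      (one_mem _)
    rwa [S.red_one] at this
  obtain ⟨vb, hvb, hvb0, hdom⟩ := exists_dominant S.hFk (redSpace S (riemannRochSpace D)) h1
  obtain ⟨v, hvD, hvO, rfl⟩ := (mem_redSpace_iff S _).mp hvb
  have hv0 : v ≠ 0 := S.ne_zero_of_red_ne_zero hvb0
  set R := poleDiv S.hFk (S.red v) with hR
  have hdegR : Divisor.degree R ≤ Divisor.degree D :=
    (hFI.degree_le v).trans (degree_mono S.hF (poleDiv_le_of_mem S.hF hD hv0 hvD))
  have hfin := finrank_redSpace S hL (riemannRochSpace D)
  have hellD := ell_of_degree_gt S.hF (D := D) (by linarith)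
  have hle : Module.finrank k (redSpace S (riemannRochSpace D)) ≤ ell R := by
    have := finite_riemannRochSpace S.hFk R
    exact Submodule.finrank_mono hdom
  have hle' : Divisor.degree D + 1 - (genusFF K F : ℤ) ≤ (ell R : ℤ) := by
    rw [← hellD]
    have : ell D ≤ ell R := by
      rw [ell_def, ← hfin]
      exact hle
    exact_mod_cast this
  have hdeg2 : 2 * (genusFF k Fk : ℤ) ≤ Divisor.degree R := by
    by_contra hlt
    push Not at hlt
    have := ell_le_of_degree_le S.hFk (E := R) (by omega)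
    have h3 : (ell R : ℤ) ≤ (genusFF k Fk : ℤ) := by exact_mod_cast this
    rw [← hg] at h3
    linarith
  have hellR := ell_of_degree_gt S.hFk (D := R) (by linarith)
  rw [← hg] at hellR
  have hdegeq : Divisor.degree R = Divisor.degree D := le_antisymm hdegR (by linarith)
  refine ⟨R, hdegeq, ?_⟩
  have := finite_riemannRochSpace S.hFk R
  refine Submodule.eq_of_le_of_finrank_eq hdom ?_
  rw [hfin, ← ell_def, ← ell_def]
  have : (ell D : ℤ) = (ell R : ℤ) := by rw [hellD, hellR, hdegeq]
  exact_mod_cast this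

/-- Claim 4: shifting by the divisor of a unit of `Ov`. -/
theorem IsRedDiv.add_divOf {S : ValSetup K F k Fk} {D : Divisor K F} {R : Divisor k Fk}
    (h : IsRedDiv S D R) {f : F} (hf : f ∈ S.Ov) (hinv : f⁻¹ ∈ S.Ov) (hf0 : f ≠ 0) :
    IsRedDiv S (D + divOf S.hF f) (R + divOf S.hFk (S.red f)) := by
  have hrf : S.red f ≠ 0 := S.red_ne_zero hf hinv hf0
  refine ⟨by rw [map_add, map_add, degree_divOf, degree_divOf, h.1], ?_⟩
  ext y
  rw [mem_riemannRochSpace_add_divOf_iff S.hFk R hrf, ← h.2, mem_redSpace_iff, mem_redSpace_iff]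
  constructor
  · rintro ⟨x, hxL, hxO, rfl⟩
    refine ⟨x * f, (mem_riemannRochSpace_add_divOf_iff S.hF D hf0 x).mp hxL, mul_mem hxO hf,
      S.red_mul hxO hf⟩
  · rintro ⟨x, hxL, hxO, hx⟩
    refine ⟨x * f⁻¹, ?_, mul_mem hxO hinv, ?_⟩
    · rw [mem_riemannRochSpace_add_divOf_iff S.hF D hf0, mul_assoc, inv_mul_cancel₀ hf0, mul_one]
      exact hxL
    · rw [S.red_mul hxO hinv, hx, S.red_inv hf hinv hf0, mul_assoc, mul_inv_cancel₀ hrf, mul_one]

/-- Claim 1, general case. -/
theorem exists_isRedDiv (hL : HasLattice S) [Infinite k] (hFI : FundIneqProp S)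
    (hg : genusFF K F = genusFF k Fk) {D : Divisor K F}
    (hdeg : 2 * (genusFF K F : ℤ) ≤ Divisor.degree D) :
    ∃ R : Divisor k Fk, IsRedDiv S D R := by
  have hellD := ell_of_degree_gt S.hF (D := D) (by linarith)
  have hpos : 0 < ell D := by
    have : (0 : ℤ) < (ell D : ℤ) := by rw [hellD]; linarith
    exact_mod_cast this
  have := finite_riemannRochSpace S.hF D
  obtain ⟨f₀, hf₀, hf₀0⟩ : ∃ f ∈ riemannRochSpace D, f ≠ 0 := by
    by_contra hcon
    push Not at hcon
    have hbot : riemannRochSpace D = ⊥ := by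
      rw [eq_bot_iff]
      intro x hx
      rw [Submodule.mem_bot]
      exact hcon x hx
    rw [ell_def, hbot, finrank_bot] at hpos
    exact lt_irrefl _ hpos
  obtain ⟨c, hc0, hred⟩ := S.exists_scale hf₀0
  set f := c⁻¹ • f₀ with hfdef
  have hfL : f ∈ riemannRochSpace D := Submodule.smul_mem _ _ hf₀
  have hf0 : f ≠ 0 := S.ne_zero_of_red_ne_zero hred
  have hfO : f ∈ S.Ov := S.mem_of_red_ne_zero hred
  have hfinv : f⁻¹ ∈ S.Ov := S.inv_mem_of_red_ne_zero hred
  have hD' : 0 ≤ D + divOf S.hF f := by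
    have := (mem_riemannRochSpace_iff_le S.hF hf0).mp hfL
    rw [← sub_nonneg] at this
    rw [sub_neg_eq_add, add_comm] at this
    exact this
  have hdeg' : 2 * (genusFF K F : ℤ) ≤ Divisor.degree (D + divOf S.hF f) := by
    rw [map_add, degree_divOf, add_zero]
    exact hdeg
  obtain ⟨R', hR'⟩ := exists_isRedDiv_of_nonneg S hL hFI hg hD' hdeg'
  have := hR'.add_divOf (f := f⁻¹) hfinv (by rw [inv_inv]; exact hfO) (inv_ne_zero hf0)
  rw [divOf_inv, add_neg_cancel_right] at this
  exact ⟨_, this⟩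

/-! ### uniqueness, monotonicity, additivity -/

theorem IsRedDiv.unique {S : ValSetup K F k Fk} {D : Divisor K F} {R R' : Divisor k Fk}
    (hg : genusFF K F = genusFF k Fk) (hdeg : 2 * (genusFF K F : ℤ) ≤ Divisor.degree D)
    (h : IsRedDiv S D R) (h' : IsRedDiv S D R') : R = R' := by
  refine eq_of_riemannRochSpace_eq S.hFk ?_ ?_ (h.2.symm.trans h'.2)
  · rw [h.1, ← hg]; exact hdeg
  · rw [h'.1, ← hg]; exact hdeg

theorem IsRedDiv.mono {S : ValSetup K F k Fk} {D D' : Divisor K F} {R R' : Divisor k Fk}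
    (hg : genusFF K F = genusFF k Fk) (hdeg : 2 * (genusFF K F : ℤ) ≤ Divisor.degree D)
    (h : IsRedDiv S D R) (h' : IsRedDiv S D' R') (hle : D ≤ D') : R ≤ R' := by
  refine le_of_riemannRochSpace_le S.hFk ?_ ?_
  · rw [h.1, ← hg]; exact hdeg
  · rw [← h.2, ← h'.2]
    exact redSpace_mono S (riemannRochSpace_mono hle)

theorem IsRedDiv.add {S : ValSetup K F k Fk} {D D' : Divisor K F} {R R' R'' : Divisor k Fk}
    (hg : genusFF K F = genusFF k Fk) (hdeg : 2 * (genusFF K F : ℤ) ≤ Divisor.degree D)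
    (hdeg' : 2 * (genusFF K F : ℤ) ≤ Divisor.degree D')
    (h : IsRedDiv S D R) (h' : IsRedDiv S D' R') (h'' : IsRedDiv S (D + D') R'') :
    R'' = R + R' := by
  symm
  refine eq_of_le_of_degree_eq S.hFk ?_ ?_
  · rw [Finsupp.le_def]
    intro Q
    obtain ⟨fb, hfb, hfb0, hordf⟩ := exists_ord_eq S.hFk (E := R) (by rw [h.1, ← hg]; exact hdeg) Q
    obtain ⟨gb, hgb, hgb0, hordg⟩ :=
      exists_ord_eq S.hFk (E := R') (by rw [h'.1, ← hg]; exact hdeg') Q
    rw [← h.2] at hfb
    rw [← h'.2] at hgb
    obtain ⟨x, hxL, hxO, rfl⟩ := (mem_redSpace_iff S _).mp hfb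
    obtain ⟨y, hyL, hyO, rfl⟩ := (mem_redSpace_iff S _).mp hgb
    have hmem : S.red (x * y) ∈ riemannRochSpace R'' := by
      rw [← h''.2]
      exact red_mem_redSpace S _ (mul_mem_riemannRochSpace_add hxL hyL) (mul_mem hxO hyO)
    rw [S.red_mul hxO hyO] at hmem
    have := ((mem_riemannRochSpace_iff.mp hmem) Q).resolve_left (mul_ne_zero hfb0 hgb0)
    rw [Q.ord_mul hfb0 hgb0] at this
    rw [Finsupp.add_apply]
    omega
  · rw [map_add, h.1, h'.1, h''.1, map_add]

/-! ### the reduction map of places -/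

theorem exists_nonneg_add_nonneg (B : Divisor K F) : ∃ C : Divisor K F, 0 ≤ C ∧ 0 ≤ B + C := by
  refine ⟨Finsupp.mapRange (fun n : ℤ => max (-n) 0) (by simp) B, ?_, ?_⟩
  · rw [Finsupp.le_def]
    intro v
    rw [Finsupp.mapRange_apply, Finsupp.zero_apply]
    exact le_max_right _ _
  · rw [Finsupp.le_def]
    intro v
    rw [Finsupp.add_apply, Finsupp.mapRange_apply, Finsupp.zero_apply]
    have := le_max_left (-(B v)) 0
    omega

/-- **Deuring's reduction map**, from the lattice property, the fundamental inequality and genus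
equality.  `IsRedDiv S B (r_* B)` for every divisor `B` of degree `≥ 2g`, and
`r_* (div f) = div (red f)` for units `f` of `Ov`. -/
theorem exists_reduction_isRedDiv (hL : HasLattice S) [Infinite k] (hFI : FundIneqProp S)
    (hg : genusFF K F = genusFF k Fk) :
    ∃ r : Place K F → Place k Fk,
      ∀ B : Divisor K F, 2 * (genusFF K F : ℤ) ≤ Divisor.degree B →
        IsRedDiv S B (Finsupp.mapDomain r B) := by
  classical
  have hex : ∀ D : Divisor K F, ∃ R : Divisor k Fk,
      2 * (genusFF K F : ℤ) ≤ Divisor.degree D → IsRedDiv S D R := by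
    intro D
    by_cases hD : 2 * (genusFF K F : ℤ) ≤ Divisor.degree D
    · obtain ⟨R, hR⟩ := exists_isRedDiv S hL hFI hg hD
      exact ⟨R, fun _ => hR⟩
    · exact ⟨0, fun h => absurd h hD⟩
  choose Rd hRd using hex
  have hadd : ∀ D D' : Divisor K F, 2 * (genusFF K F : ℤ) ≤ Divisor.degree D →
      2 * (genusFF K F : ℤ) ≤ Divisor.degree D' → Rd (D + D') = Rd D + Rd D' := by
    intro D D' hD hD'
    have hDD' : 2 * (genusFF K F : ℤ) ≤ Divisor.degree (D + D') := by
      rw [map_add]
      have : (0 : ℤ) ≤ (genusFF K F : ℤ) := Int.natCast_nonneg _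
      linarith
    exact IsRedDiv.add hg hD hD' (hRd D hD) (hRd D' hD') (hRd _ hDD')
  obtain ⟨P₀⟩ := nonempty_place S.hF
  set E₀ : Divisor K F := Finsupp.single P₀ (2 * (genusFF K F : ℤ)) with hE₀
  have hE₀deg : Divisor.degree E₀ = 2 * (genusFF K F : ℤ) := by
    rw [hE₀, degree_single_one S.hF]
  have hE₀nn : 0 ≤ E₀ := by
    rw [hE₀, Finsupp.le_def]
    intro v
    rw [Finsupp.zero_apply, Finsupp.single_apply]
    split_ifs
    · have : (0 : ℤ) ≤ (genusFF K F : ℤ) := Int.natCast_nonneg _
      linarith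
    · exact le_rfl
  have hdegE : ∀ D : Divisor K F, 0 ≤ D →
      2 * (genusFF K F : ℤ) ≤ Divisor.degree (E₀ + D) := by
    intro D hD
    rw [map_add, hE₀deg]
    have := degree_nonneg_of_nonneg S.hF hD
    linarith
  -- the image of a place
  have hplace : ∀ P : Place K F, ∃ Q : Place k Fk,
      Rd (E₀ + Finsupp.single P 1) - Rd E₀ = Finsupp.single Q 1 := by
    intro P
    have hP : (0 : Divisor K F) ≤ Finsupp.single P 1 := by
      rw [Finsupp.le_def]
      intro v
      rw [Finsupp.zero_apply, Finsupp.single_apply]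
      split_ifs <;> simp
    have h1 := hRd E₀ hE₀deg.ge
    have h2 := hRd _ (hdegE _ hP)
    refine exists_eq_single_of_degree_eq_one S.hFk ?_ ?_
    · rw [sub_nonneg]
      exact IsRedDiv.mono hg hE₀deg.ge h1 h2 (le_add_of_nonneg_right hP)
    · rw [map_sub, h1.1, h2.1, map_add, hE₀deg, degree_single_one S.hF]
      ring
  choose r hr using hplace
  -- effective case
  have heff : ∀ D : Divisor K F, 0 ≤ D → Rd (E₀ + D) = Rd E₀ + Finsupp.mapDomain r D := by
    intro D hD
    refine divisor_le_induction S.hF (D := 0)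
      (p := fun D => Rd (E₀ + D) = Rd E₀ + Finsupp.mapDomain r D) ?_ ?_ D hD
    · simp
    · intro E P hE hpE
      have h1 := hadd (E₀ + E) (E₀ + Finsupp.single P 1) (hdegE E hE) (hdegE _ (by
        rw [Finsupp.le_def]
        intro v
        rw [Finsupp.zero_apply, Finsupp.single_apply]
        split_ifs <;> simp))
      have h2 := hadd (E₀ + (E + Finsupp.single P 1)) E₀ (hdegE _ (by
        refine add_nonneg hE ?_
        rw [Finsupp.le_def]
        intro v
        rw [Finsupp.zero_apply, Finsupp.single_apply]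
        split_ifs <;> simp)) hE₀deg.ge
      have h3 : E₀ + E + (E₀ + Finsupp.single P 1) = E₀ + (E + Finsupp.single P 1) + E₀ := by
        abel
      rw [h3, h2] at h1
      have h4 := hr P
      rw [Finsupp.mapDomain_add, Finsupp.mapDomain_single, ← h4]
      rw [hpE] at h1
      have h5 : Rd (E₀ + (E + Finsupp.single P 1)) =
          Rd E₀ + Finsupp.mapDomain r E + Rd (E₀ + Finsupp.single P 1) - Rd E₀ := by
        rw [← h1]; abel
      rw [h5]; abel
  have hE₀r : Rd E₀ = Finsupp.mapDomain r E₀ := by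
    have h1 := hadd E₀ E₀ hE₀deg.ge hE₀deg.ge
    have h2 := heff E₀ hE₀nn
    rw [h1] at h2
    exact add_left_cancel h2
  refine ⟨r, fun B hB => ?_⟩
  have hmain : Rd B = Finsupp.mapDomain r B := by
    obtain ⟨C, hC, hBC⟩ := exists_nonneg_add_nonneg B
    have h1 := hadd B (E₀ + C) hB (hdegE C hC)
    have h2 : B + (E₀ + C) = E₀ + (B + C) := by abel
    rw [h2, heff _ hBC, heff _ hC, Finsupp.mapDomain_add] at h1
    have h3 : Rd B = Rd E₀ + (Finsupp.mapDomain r B + Finsupp.mapDomain r C) -
        (Rd E₀ + Finsupp.mapDomain r C) := by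
      rw [h1]; abel
    rw [h3]; abel
  rw [← hmain]
  exact hRd B hB

/-- **Deuring's reduction map**: `(push)` and `(GR)`. -/
theorem exists_reduction_of_fundIneq (hL : HasLattice S) [Infinite k] (hFI : FundIneqProp S)
    (hg : genusFF K F = genusFF k Fk) :
    ∃ r : Place K F → Place k Fk,
      (∀ f : F, f ∈ S.Ov → f⁻¹ ∈ S.Ov → f ≠ 0 → ∀ Q : Place k Fk,
        Finsupp.mapDomain r (divOf S.hF f) Q = Q.ord (S.red f)) ∧
      (∀ B : Divisor K F, 2 * (genusFF K F : ℤ) ≤ Divisor.degree B →
        redSpace S (riemannRochSpace B) = riemannRochSpace (Finsupp.mapDomain r B)) ∧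
      (∀ B : Divisor K F, Divisor.degree (Finsupp.mapDomain r B) = Divisor.degree B) := by
  obtain ⟨r, hr⟩ := exists_reduction_isRedDiv S hL hFI hg
  obtain ⟨P₀⟩ := nonempty_place S.hF
  set E₀ : Divisor K F := Finsupp.single P₀ (2 * (genusFF K F : ℤ)) with hE₀
  have hE₀deg : Divisor.degree E₀ = 2 * (genusFF K F : ℤ) := by
    rw [hE₀, degree_single_one S.hF]
  refine ⟨r, fun f hf hinv hf0 Q => ?_, fun B hB => (hr B hB).2, fun B => ?_⟩
  · have h1 := (hr E₀ hE₀deg.ge).add_divOf hf hinv hf0
    have hdeg : 2 * (genusFF K F : ℤ) ≤ Divisor.degree (E₀ + divOf S.hF f) := by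
      rw [map_add, degree_divOf, add_zero, hE₀deg]
    have h2 := IsRedDiv.unique hg hdeg h1 (hr _ hdeg)
    rw [Finsupp.mapDomain_add] at h2
    have h3 := add_left_cancel h2
    rw [← h3, divOf_apply]
  · have hB' : 2 * (genusFF K F : ℤ) ≤
        Divisor.degree (B + Finsupp.single P₀ (2 * (genusFF K F : ℤ) - Divisor.degree B)) := by
      rw [map_add, degree_single_one S.hF]
      linarith
    have h1 := (hr _ hB').1
    rw [Finsupp.mapDomain_add, Finsupp.mapDomain_single, map_add, map_add,
      degree_single_one S.hF, degree_single_one S.hFk] at h1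
    exact add_right_cancel h1

end Fermat.Agent.Deuring
end
end MergeWrap_Lib_Deuring_Construct
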