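import Mathlib
import Fermat.Agent.MUL.Lib.Deuring.Setup
import Fermat.Agent.MUL.Lib.Deuring.RedSpace
import Fermat.Agent.MUL.Lib.Deuring.Generic
import Fermat.Agent.MUL.Lib.Deuring.FundIneqAux
import Fermat.Agent.MUL.Lib.GenusEq.Bridge

section MergeWrap_Lib_Deuring_FundIneq -- from Lib/Deuring/FundIneq.lean

set_option autoImplicit false

/-!
# Deuring library, piece (P3)+(P4): fundamental inequality and genus inequality

OWNER: helper80.  Statements are FIXED (tell helper79 if one is wrong/awkward).

Maths.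
(P3) `w ∈ Ov`, `wbar = red w`.  Let `d = deg (wbar)_∞`.  On the special fibre there are
  `ybar_1..ybar_d` with `wbar^j ybar_i` linearly independent over `k` (`fi_exists_family_aux`:
  `ybar_i ∈ L_k(m Bbar)` independent modulo `L_k(m Bbar - Zbar)`, `Zbar` = zero divisor of `wbar`).
  Lift to `y_i ∈ Ov`: the `w^j y_i` are orthonormal, hence `K`-linearly independent
  (`linearIndependent_of_red`), and for `j ≤ l` they lie in `L(l (w)_∞ + C)`.  So
  `d (l + 1) ≤ ℓ(l (w)_∞ + C) ≤ l deg (w)_∞ + deg C + 1` for all `l`, i.e. `d ≤ deg (w)_∞`.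
  (The transcendence hypothesis is not used.)
(P4) genus inequality from the lattice property: for `D ≥ 0` of large degree `redSpace L(D)` has
  dimension `ℓ(D) = deg D + 1 - g` and lies in `L_k((v)_∞)` for a dominant `v` (`exists_dominant`)
  with `deg (v)_∞ ≤ deg D` (P3).
-/

noncomputable section

open AlgebraicCurve Fermat.Agent.RR

namespace Fermat.Agent.Deuring

variable {K F k Fk : Type*} [Field K] [Field F] [Algebra K F]
  [Field k] [Field Fk] [Algebra k Fk]

/-- (P3) without the transcendence hypothesis. -/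
theorem fi_degree_poleDiv_red_le (S : ValSetup K F k Fk) {w : F} (hw : w ∈ S.Ov) :
    Divisor.degree (poleDiv S.hFk (S.red w)) ≤ Divisor.degree (poleDiv S.hF w) := by
  classical
  have hb0 : 0 ≤ Divisor.degree (poleDiv S.hF w) :=
    degree_nonneg_of_nonneg S.hF (poleDiv_nonneg S.hF w)
  have hd0 : 0 ≤ Divisor.degree (poleDiv S.hFk (S.red w)) :=
    degree_nonneg_of_nonneg S.hFk (poleDiv_nonneg S.hFk _)
  obtain ⟨d, hd⟩ : ∃ d : ℕ, (d : ℤ) = Divisor.degree (poleDiv S.hFk (S.red w)) :=
    ⟨_, Int.toNat_of_nonneg hd0⟩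
  obtain ⟨ybar, hli⟩ := fi_exists_family_aux S.hFk (S.red w) d hd
  choose y hy using fun i => S.ρ_surj (ybar i)
  have hyO : ∀ i, ((y i : S.Ov) : F) ∈ S.Ov := fun i => (y i).2
  have hred : ∀ i, S.red ((y i : S.Ov) : F) = ybar i := by
    intro i
    rw [S.red_of_mem (y i).2]
    exact hy i
  obtain ⟨C, hC0, hC⟩ := exists_common_poleBound S.hF
    (Finset.univ.image fun i => ((y i : S.Ov) : F))
  have hc0 : 0 ≤ Divisor.degree C := degree_nonneg_of_nonneg S.hF hC0
  -- the counting inequality for every `l`
  have hcount : ∀ l : ℕ, ((l : ℤ) + 1) * d ≤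
      (l : ℤ) * Divisor.degree (poleDiv S.hF w) + Divisor.degree C + 1 := by
    intro l
    let e : Fin (l + 1) × Fin d ≃ Fin ((l + 1) * d) := finProdFinEquiv
    let u : Fin ((l + 1) * d) → F := fun q => w ^ ((e.symm q).1 : ℕ) * ((y (e.symm q).2 : S.Ov) : F)
    have huO : ∀ q, u q ∈ S.Ov := fun q => mul_mem (pow_mem hw _) (hyO _)
    have hured : ∀ q, S.red (u q) = S.red w ^ ((e.symm q).1 : ℕ) * ybar (e.symm q).2 := by
      intro q
      rw [S.red_mul (pow_mem hw _) (hyO _), S.red_pow hw, hred]
    have hli1 : LinearIndependent k (fun q => S.red (u q)) := by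
      have h1 := hli.comp (fun q : Fin ((l + 1) * d) => (((e.symm q).1 : ℕ), (e.symm q).2)) (by
        intro q q' hqq
        simp only [Prod.mk.injEq] at hqq
        apply e.symm.injective
        exact Prod.ext (Fin.ext hqq.1) hqq.2)
      have e1 : (fun q => S.red (u q)) =
          (fun p : ℕ × Fin d => S.red w ^ p.1 * ybar p.2) ∘
            (fun q : Fin ((l + 1) * d) => (((e.symm q).1 : ℕ), (e.symm q).2)) := by
        funext q
        rw [hured]
        rfl
      rw [e1]
      exact h1
    have hliK : LinearIndependent K u := linearIndependent_of_red S u huO hli1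
    have hmem : ∀ q, u q ∈ riemannRochSpace (l • poleDiv S.hF w + C) := fun q =>
      pow_mul_mem S.hF w (hC _ (Finset.mem_image_of_mem _ (Finset.mem_univ _)))
        (Nat.lt_succ_iff.mp (e.symm q).1.2)
    have hli2 : LinearIndependent K (fun q =>
        (⟨u q, hmem q⟩ : riemannRochSpace (l • poleDiv S.hF w + C))) := by
      apply LinearIndependent.of_comp (riemannRochSpace (l • poleDiv S.hF w + C)).subtype
      exact hliK
    have hfin := finite_riemannRochSpace S.hF (l • poleDiv S.hF w + C)
    have hcard := hli2.fintype_card_le_finrank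
    rw [Fintype.card_fin] at hcard
    have hdeg : Divisor.degree (l • poleDiv S.hF w + C) =
        (l : ℤ) * Divisor.degree (poleDiv S.hF w) + Divisor.degree C := by
      rw [map_add, map_nsmul, nsmul_eq_mul]
    have hnn : 0 ≤ Divisor.degree (l • poleDiv S.hF w + C) := by
      rw [hdeg]
      positivity
    have hle := ell_le_degree_add_one S.hF hnn
    rw [hdeg, ell_def] at hle
    have hcard' : (((l + 1) * d : ℕ) : ℤ) ≤
        (Module.finrank K (riemannRochSpace (l • poleDiv S.hF w + C)) : ℤ) := by
      exact_mod_cast hcard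
    push_cast at hcard'
    linarith
  rw [← hd]
  by_contra hlt
  push Not at hlt
  have h1 := hcount ((Divisor.degree C).toNat + 1)
  have h2 : ((Divisor.degree C).toNat : ℤ) = Divisor.degree C := Int.toNat_of_nonneg hc0
  push_cast at h1
  rw [h2] at h1
  have h3 : Divisor.degree (poleDiv S.hF w) + 1 ≤ (d : ℤ) := hlt
  have h4 : (Divisor.degree C + 1 + 1) * (Divisor.degree (poleDiv S.hF w) + 1) ≤
      (Divisor.degree C + 1 + 1) * (d : ℤ) :=
    mul_le_mul_of_nonneg_left h3 (by omega)
  nlinarith

/-- (P3) **fundamental inequality**, divisor form. -/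
theorem degree_poleDiv_red_le (S : ValSetup K F k Fk) {w : F} (hw : w ∈ S.Ov)
    (htr : Transcendental k (S.red w)) :
    Divisor.degree (poleDiv S.hFk (S.red w)) ≤ Divisor.degree (poleDiv S.hF w) := by
  have _h := htr
  exact fi_degree_poleDiv_red_le S hw

/-- the pole divisor of an element of `L(D)`, `D ≥ 0`, is at most `D`. -/
theorem fi_poleDiv_le (h : IsRRField K F) {D : Divisor K F} (hD : 0 ≤ D) {f : F}
    (hf : f ∈ riemannRochSpace D) : poleDiv h f ≤ D := by
  rw [Finsupp.le_def]
  intro v
  rw [poleDiv_apply]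
  have h0 : 0 ≤ D v := by
    have := (Finsupp.le_def.mp hD) v
    simpa using this
  rcases (mem_riemannRochSpace_iff.mp hf) v with h1 | h1
  · rw [h1, v.ord_zero]
    simpa using h0
  · exact max_le (by omega) h0

/-- (P4) **Deuring's genus inequality** `g(Fk) ≤ g(F)`. -/
theorem genusFF_le (S : ValSetup K F k Fk) (hL : HasLattice S) [Infinite k] :
    genusFF k Fk ≤ genusFF K F := by
  classical
  set g : ℕ := genusFF K F with hg
  set gk : ℕ := genusFF k Fk with hgk
  obtain ⟨P₀⟩ := nonempty_place S.hF
  obtain ⟨Q₀⟩ := nonempty_place S.hFk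
  set N : ℕ := 2 * g + 2 * gk + 1 with hN
  set D : Divisor K F := Finsupp.single P₀ (N : ℤ) with hD
  have hD0 : 0 ≤ D := by
    rw [hD]
    exact Finsupp.single_nonneg.mpr (Int.natCast_nonneg N)
  have hdegD : Divisor.degree D = N := by
    rw [hD, Divisor.degree_single, S.hF.deg_one]
    simp
  have hNz : (N : ℤ) = 2 * g + 2 * gk + 1 := by
    rw [hN]
    push_cast
    ring
  have hellD := ell_of_degree_gt S.hF (D := D) (by rw [hdegD, hNz]; omega)
  rw [hdegD] at hellD
  have hfinW := finite_riemannRochSpace S.hF D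
  have hfinV := finiteDimensional_redSpace S hL (riemannRochSpace D)
  have hrank := finrank_redSpace S hL (riemannRochSpace D)
  have h1W : (1 : F) ∈ riemannRochSpace D := by
    have h0 : (1 : F) ∈ riemannRochSpace (0 : Divisor K F) := by
      have := algebraMap_mem_riemannRochSpace_zero (K := K) (F := F) (1 : K)
      rwa [map_one] at this
    exact riemannRochSpace_mono hD0 h0
  have h1V : (1 : Fk) ∈ redSpace S (riemannRochSpace D) := by
    have := red_mem_redSpace S (riemannRochSpace D) h1W (one_mem _)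
    rwa [S.red_one] at this
  obtain ⟨vbar, hvV, hv0, hdom⟩ := exists_dominant S.hFk (redSpace S (riemannRochSpace D)) h1V
  obtain ⟨v, hvW, hvO, rfl⟩ := (mem_redSpace_iff S _).mp hvV
  have hP3 := fi_degree_poleDiv_red_le S hvO
  have hle1 : Divisor.degree (poleDiv S.hF v) ≤ N := by
    rw [← hdegD]
    exact degree_mono S.hF (fi_poleDiv_le S.hF hD0 hvW)
  set E : Divisor k Fk := poleDiv S.hFk (S.red v) with hE
  have he0 : 0 ≤ Divisor.degree E := degree_nonneg_of_nonneg S.hFk (poleDiv_nonneg S.hFk _)
  set E' : Divisor k Fk := E + Finsupp.single Q₀ ((N : ℤ) - Divisor.degree E) with hE'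
  have hEE' : E ≤ E' := by
    rw [hE']
    apply le_add_of_nonneg_right
    exact Finsupp.single_nonneg.mpr (by omega)
  have hdegE' : Divisor.degree E' = N := by
    rw [hE', map_add, Divisor.degree_single, S.hFk.deg_one]
    simp
  have hellE' := ell_of_degree_gt S.hFk (D := E') (by rw [hdegE', hNz]; omega)
  rw [hdegE'] at hellE'
  have hfinE := finite_riemannRochSpace S.hFk E
  have h2 : Module.finrank k (redSpace S (riemannRochSpace D)) ≤ ell E := by
    rw [ell_def]
    exact Submodule.finrank_mono hdom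
  have h3 : ell E ≤ ell E' := ell_mono S.hFk hEE'
  have h4 : (ell D : ℤ) ≤ (ell E' : ℤ) := by
    rw [ell_def (D := D), ← hrank]
    exact_mod_cast h2.trans h3
  rw [hellD, hellE'] at h4
  omega

end Fermat.Agent.Deuring
end
end MergeWrap_Lib_Deuring_FundIneq
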